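import Fermat.Agent.LT.H17.MasterState

/-!
# Row LT -- THE OUTPUT OF THE ROW (row-lead helper17)

    Fermat.Agent.LT.Final.s47 : LTB.S47Statement

= the statement of Langlands--Tunnell in the form (ii) of row 42 (frozen statement S47), from
the closed wall of helper556 (`PAR556`, `A2_556`, `A3c_556`, `A3q_556`): towers T1 -- T8, A2,
CFT, IDENT, GLUE2.  No hypothesis; axioms `propext`, `Classical.choice`, `Quot.sound` only.
-/

set_option autoImplicit false

namespace Fermat.Agent.LT.Final

/-- **Langlands--Tunnell for `GL₂(𝔽₃)`, form (ii) of row 42.** -/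
theorem s47 : LTB.S47Statement :=
  Fermat.Agent.LT.H17.master_s47_closed17

end Fermat.Agent.LT.Final
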